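import Mathlib
import Fermat.Agent.LT.T7.B981.H503.StepSSpec
import Fermat.Agent.LT.H129.HeckeExists

/-!
# Row LT, tower T7, leaf SS.0 `UnifC503` (helper704, registry row 2877)

OFF-MAIN.  ADDITIVE (new name only, suffix `704`).  No hole, nothing assumed.

    unifC704 (K) : SS503.UnifC503 K          (VERBATIM, UNCONDITIONAL)

Plug of the closed asset `H129.exists_scalarUniformizer129` (`LT/H129/HeckeExists.lean`, MASTER
bytes) on the spec `LT/T7/B981/H503/StepSSpec.lean` (helper503, sha256 b4d9e9b9).
-/

set_option autoImplicit false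

open IsDedekindDomain NumberField

namespace Fermat.Agent.LT.T7.B981.H704

open Fermat.Agent.LT.H556.A0

/-- **LEAF SS.0 `UnifC503`**, VERBATIM, UNCONDITIONAL. -/
theorem unifC704 (K : Type) [Field K] [NumberField K] : SS503.UnifC503 K :=
  fun v => Fermat.Agent.LT.H129.exists_scalarUniformizer129 (K := K) v

end Fermat.Agent.LT.T7.B981.H704
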